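/-
S56 / FLAT (architect helper116): DEFINITIONS.

We work inside `Qb = AlgebraicClosure ℚ` with a valuation subring `A` over `p`, its inertia group
`I = A.inertiaSubgroupIn ℚ`, the inertia field `K0 A` and `A0 A = A ∩ K0 A` (a henselian discrete
valuation ring with uniformiser `p` and algebraically closed residue field, Lib/InertiaField).

* `Model A W` : a "Hopf order" for the finite `I`-module `W`: a ring of `I`-equivariant `A`-valued
  functions on `W`, finitely generated over `A0 A`, separating the points, closed under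
  comultiplication.  This is what a finite flat commutative group scheme over `A0 A` with generic
  fibre `W` is (after killing nilpotents).
* `FlatLoc A W := Nonempty (Model A W)`.
* gauges: "congruent modulo `c`" is `A.valuation (x - y) ≤ A.valuation c`; the condition
  "`v(c) > 1/(p-1)`" is `Small A p c`.
-/
import Fermat.Agent.Lib.InertiaField.Unram
import Fermat.Agent.Lib.InertiaField.Closed
import Fermat.Agent.Lib.InertiaField.Hensel
import Fermat.Agent.Lib.InertiaField.Residue
import Fermat.Agent.Lib.InertiaField.Arch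

set_option autoImplicit false

namespace Fermat.Agent.S56.Flat

open Fermat.Agent.Lib.InertiaField

/-- The inertia group of `A`, as a subgroup of `GQ`. -/
noncomputable abbrev Iner (A : ValuationSubring Qb) : Subgroup GQ := A.inertiaSubgroupIn ℚ

/-- `a` is an element of `A0 A`, seen in `Qb`. -/
def InA0 (A : ValuationSubring Qb) (a : Qb) : Prop := a ∈ K0 A ∧ a ∈ A

/-- `v(c) > 1/(p-1)`. -/
def Small (A : ValuationSubring Qb) (p : ℕ) (c : Qb) : Prop :=
  A.valuation c ^ (p - 1) < A.valuation (p : Qb)

/-- A Hopf order for the `I`-module `W`. -/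
structure Model (A : ValuationSubring Qb) (W : Type) [AddCommGroup W]
    [DistribMulAction ↥(Iner A) W] where
  /-- the ring of functions -/
  carrier : Subring (W → Qb)
  int : ∀ f ∈ carrier, ∀ w, f w ∈ A
  equiv : ∀ f ∈ carrier, ∀ (σ : ↥(Iner A)) (w : W), f (σ • w) = σ.1 (f w)
  const : ∀ a : Qb, InA0 A a → (fun _ : W => a) ∈ carrier
  fg : ∃ (n : ℕ) (F : Fin n → W → Qb), (∀ i, F i ∈ carrier) ∧
    ∀ f ∈ carrier, ∃ a : Fin n → Qb, (∀ i, InA0 A (a i)) ∧ ∀ w, f w = ∑ i, a i * F i w
  sep : ∀ w w' : W, (∀ f ∈ carrier, f w = f w') → w = w'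
  comul : ∀ f ∈ carrier, ∃ (n : ℕ) (g h : Fin n → W → Qb), (∀ i, g i ∈ carrier) ∧
    (∀ i, h i ∈ carrier) ∧ ∀ w w', f (w + w') = ∑ i, g i w * h i w'

/-- `W` is the generic fibre of a finite flat commutative group scheme over `A0 A`. -/
def FlatLoc (A : ValuationSubring Qb) (W : Type) [AddCommGroup W]
    [DistribMulAction ↥(Iner A) W] : Prop := Nonempty (Model A W)

variable {A : ValuationSubring Qb} {W : Type} [AddCommGroup W] [DistribMulAction ↥(Iner A) W]

/-- `w` and `w'` are congruent modulo `c` in the model `M`. -/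
def Model.Cong (M : Model A W) (c : Qb) (w w' : W) : Prop :=
  ∀ f ∈ M.carrier, A.valuation (f w - f w') ≤ A.valuation c

/-- `w` reduces to `0` in the special fibre. -/
def Model.Pos (M : Model A W) (w : W) : Prop :=
  ∀ f ∈ M.carrier, A.valuation (f w - f 0) < 1

/-- The subgroup `(I - 1) W`. -/
def augSub (A : ValuationSubring Qb) (W : Type) [AddCommGroup W]
    [DistribMulAction ↥(Iner A) W] : AddSubgroup W :=
  AddSubgroup.closure {x | ∃ (σ : ↥(Iner A)) (w : W), x = σ • w - w}

/-- `σ` acts trivially on `W`. -/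
def ActsTriv (W : Type) [AddCommGroup W] [DistribMulAction ↥(Iner A) W] (σ : ↥(Iner A)) : Prop :=
  ∀ w : W, σ • w = w

end Fermat.Agent.S56.Flat
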