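/-
S56 / FLAT / COUNT : definitions shared by the reducible case (`Flat/Red`, helper15) and the
irreducible case (`Flat/Irr`, helper78).

* `Vb s`  : `k²` with the action of `GQ` through `s : GQ →* M2 k`;
* `Wc c`  : `k² ⊕ ε k²` with the action `g (v, w) = (s g v, s g w + c(g) s g v)` attached to a
            cocycle `c` with values in `Ad0 s` (the lift `(1 + ε c) s` to the dual numbers);
* `Dp q`  : the decomposition group of the chosen place over `q`;
* `HasLine s q` : `s` restricted to the decomposition group has a stable line.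
Only definitions.
-/
import Fermat.Agent.S56.Defs
import Fermat.Agent.S56.Flat.Defs
import Fermat.Agent.S55.Arith.LocInterface

set_option autoImplicit false

namespace Fermat.Agent.S56.Flat

open Fermat.Agent.S55
open Fermat.Agent.S53 (M2)

variable {k : Type} [Field k]

/-- `k²` with the action of `GQ` through `s`. -/
def Vb (_s : GQ →* M2 k) : Type := Fin 2 → k

namespace Vb

variable (s : GQ →* M2 k)

instance : AddCommGroup (Vb s) := inferInstanceAs (AddCommGroup (Fin 2 → k))

/-- The underlying vector. -/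
def vec {s : GQ →* M2 k} (v : Vb s) : Fin 2 → k := v

/-- Constructor. -/
def mk (v : Fin 2 → k) : Vb s := v

instance [Finite k] : Finite (Vb s) := inferInstanceAs (Finite (Fin 2 → k))

noncomputable instance : DistribMulAction GQ (Vb s) where
  smul g v := mk s ((s g).mulVec v.vec)
  one_smul v := by
    change (s 1).mulVec v.vec = v
    rw [map_one, Matrix.one_mulVec]
    rfl
  mul_smul g h v := by
    change (s (g * h)).mulVec v.vec = (s g).mulVec ((s h).mulVec v.vec)
    rw [map_mul, Matrix.mulVec_mulVec]
  smul_zero g := by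
    change (s g).mulVec (0 : Fin 2 → k) = 0
    rw [Matrix.mulVec_zero]
  smul_add g v w := by
    change (s g).mulVec (v.vec + w.vec) = (s g).mulVec v.vec + (s g).mulVec w.vec
    rw [Matrix.mulVec_add]

theorem vec_smul {s : GQ →* M2 k} (g : GQ) (v : Vb s) : (g • v).vec = (s g).mulVec v.vec := rfl

end Vb

/-- `k² ⊕ ε k²` with the action defined by the cocycle `c`. -/
def Wc {s : GQ →* M2 k} {𝓝 : LevelSys GQ} (_c : Coc 𝓝 (Ad0 s)) : Type := (Fin 2 → k) × (Fin 2 → k)

namespace Wc

variable {s : GQ →* M2 k} {𝓝 : LevelSys GQ} (c : Coc 𝓝 (Ad0 s))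

instance : AddCommGroup (Wc c) := inferInstanceAs (AddCommGroup ((Fin 2 → k) × (Fin 2 → k)))

instance [Finite k] : Finite (Wc c) := inferInstanceAs (Finite ((Fin 2 → k) × (Fin 2 → k)))

/-- Constructor. -/
def mk (v w : Fin 2 → k) : Wc c := (v, w)

variable {c}

/-- The component in `k²`. -/
def fst (x : Wc c) : Fin 2 → k := x.1

/-- The component in `ε k²`. -/
def snd (x : Wc c) : Fin 2 → k := x.2

@[ext] theorem ext {x y : Wc c} (h₁ : x.fst = y.fst) (h₂ : x.snd = y.snd) : x = y := Prod.ext h₁ h₂

@[simp] theorem fst_mk (v w : Fin 2 → k) : (mk c v w).fst = v := rfl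
@[simp] theorem snd_mk (v w : Fin 2 → k) : (mk c v w).snd = w := rfl
@[simp] theorem fst_add (x y : Wc c) : (x + y).fst = x.fst + y.fst := rfl
@[simp] theorem snd_add (x y : Wc c) : (x + y).snd = x.snd + y.snd := rfl
@[simp] theorem fst_zero : (0 : Wc c).fst = 0 := rfl
@[simp] theorem snd_zero : (0 : Wc c).snd = 0 := rfl

noncomputable instance : DistribMulAction GQ (Wc c) where
  smul g x := mk c ((s g).mulVec x.fst) ((s g).mulVec x.snd + ((c g).mat * s g).mulVec x.fst)
  one_smul x := by
    apply ext
    · change (s 1).mulVec x.fst = x.fst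
      rw [map_one, Matrix.one_mulVec]
    · change (s 1).mulVec x.snd + ((c 1).mat * s 1).mulVec x.fst = x.snd
      rw [map_one, Matrix.one_mulVec, c.map_one, Ad0.mat_zero, zero_mul, Matrix.zero_mulVec,
        add_zero]
  mul_smul g h x := by
    apply ext
    · change (s (g * h)).mulVec x.fst = (s g).mulVec ((s h).mulVec x.fst)
      rw [map_mul, Matrix.mulVec_mulVec]
    · change (s (g * h)).mulVec x.snd + ((c (g * h)).mat * s (g * h)).mulVec x.fst =
        (s g).mulVec ((s h).mulVec x.snd + ((c h).mat * s h).mulVec x.fst) +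
          ((c g).mat * s g).mulVec ((s h).mulVec x.fst)
      have h1 : (c (g * h)).mat * s (g * h) = s g * ((c h).mat * s h) + (c g).mat * s g * s h := by
        rw [c.map_mul, Ad0.mat_add, Ad0.mat_smul, map_mul, add_mul]
        have h2 : s g * (c h).mat * s g⁻¹ * (s g * s h) = s g * ((c h).mat * s h) := by
          rw [mul_assoc (s g * (c h).mat), ← mul_assoc (s g⁻¹), Ad0.inv_mul_self, one_mul, mul_assoc]
        rw [h2, add_comm, mul_assoc]
      rw [h1, map_mul, Matrix.mulVec_add, Matrix.mulVec_mulVec, Matrix.mulVec_mulVec,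
        Matrix.mulVec_mulVec, Matrix.add_mulVec]
      abel
  smul_zero g := by
    apply ext
    · change (s g).mulVec (0 : Fin 2 → k) = 0
      rw [Matrix.mulVec_zero]
    · change (s g).mulVec (0 : Fin 2 → k) + ((c g).mat * s g).mulVec (0 : Fin 2 → k) = 0
      rw [Matrix.mulVec_zero, Matrix.mulVec_zero, add_zero]
  smul_add g x y := by
    apply ext
    · change (s g).mulVec (x.fst + y.fst) = (s g).mulVec x.fst + (s g).mulVec y.fst
      rw [Matrix.mulVec_add]
    · change (s g).mulVec (x.snd + y.snd) + ((c g).mat * s g).mulVec (x.fst + y.fst) =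
        ((s g).mulVec x.snd + ((c g).mat * s g).mulVec x.fst) +
          ((s g).mulVec y.snd + ((c g).mat * s g).mulVec y.fst)
      rw [Matrix.mulVec_add, Matrix.mulVec_add]
      abel

theorem fst_smul (g : GQ) (x : Wc c) : (g • x).fst = (s g).mulVec x.fst := rfl

theorem snd_smul (g : GQ) (x : Wc c) :
    (g • x).snd = (s g).mulVec x.snd + ((c g).mat * s g).mulVec x.fst := rfl

end Wc

/-- The decomposition group of the chosen place over `q`. -/
noncomputable abbrev Dp (q : Nat.Primes) : Subgroup GQ := (plc q).decompositionSubgroup ℚ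

/-- `s` restricted to the decomposition group at `q` has a stable line. -/
def HasLine (s : GQ →* M2 k) (q : Nat.Primes) : Prop :=
  ∃ v : Fin 2 → k, v ≠ 0 ∧ ∀ g ∈ Dp q, ∃ a : k, (s g).mulVec v = a • v

/-- The bound to be proved in each case, in terms of `FlatLoc`: a subgroup `L ≤ H¹_q(ad⁰)` with at
most `K` elements containing the localisations of all global cocycles `c` with `W_c` flat. -/
def FlatBound (s : GQ →* M2 k) (q : Nat.Primes) (K : ℕ) : Prop :=
  ∃ L : AddSubgroup (Hloc q (Ad0 s) 1), Finite L ∧ Nat.card L ≤ K ∧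
    ∀ (S : Finset Nat.Primes) (c : Coc (lvlS S) (Ad0 s)), FlatLoc (plc q) (Wc c) →
      locS S (Ad0 s) q 1 c.cls ∈ L

end Fermat.Agent.S56.Flat
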