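/-
S56 / FLAT (architect helper116): the predicate `a ∈ K0(ϖ)` in Galois theoretic form, used in the
statement of (RAM).
-/
import Fermat.Agent.S56.Flat.Defs

set_option autoImplicit false

namespace Fermat.Agent.S56.Flat

open Fermat.Agent.Lib.InertiaField

/-- `a` lies in `K0(ϖ)` (Galois-theoretic form). -/
def InAdj (A : ValuationSubring Qb) (ϖ a : Qb) : Prop :=
  ∀ σ : ↥(Iner A), σ.1 ϖ = ϖ → σ.1 a = a

end Fermat.Agent.S56.Flat
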