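/-
S56 / FLAT (architect helper116): all the FINISHED exports of the geometric part, in one import.

  IN   `flatLoc_of_hopf`                         (Mod/In)
  SQ   `FlatLoc.of_injective`                    (Mod/Sub)
       `FlatLoc.of_surjective`                   (Mod/Quot)
  PROD `Model.exists_prod`                       (Mod/Prod)
  ET   `FlatLoc.le_of_trivial_subquotient`       (Depth/Et)
  TC   `FlatLoc.exists_leading_term`             (Depth/Tame)
  TC1  `FlatLoc.line_trivial_or_cyclotomic`      (Depth/Tame1)
  F1   `Model.eq_of_cong`, `Model.lift_point`    (Fon/Main, Fon/LiftPoint)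
  def  `InAdj`                                   (InAdj)
  RAM  `FlatLoc.kummer_level`                    (Ram/Main)
-/
import Fermat.Agent.S56.Flat.Mod.In
import Fermat.Agent.S56.Flat.Mod.Sub
import Fermat.Agent.S56.Flat.Mod.Quot
import Fermat.Agent.S56.Flat.Mod.Prod
import Fermat.Agent.S56.Flat.Depth.Et
import Fermat.Agent.S56.Flat.Depth.Tame
import Fermat.Agent.S56.Flat.Depth.Tame1
import Fermat.Agent.S56.Flat.Fon.LiftPoint
import Fermat.Agent.S56.Flat.InAdj
import Fermat.Agent.S56.Flat.Ram.Main
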